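import Mathlib
import Fermat.Agent.S13.R1
import Fermat.Agent.S13.R3

/-!
# S58, block [RED], part 1 : the reduction map of a general Weierstrass equation with good reduction

`A` a valuation subring of `K`, `ρ : A →+* Ω` with kernel the maximal ideal, `W₀` a Weierstrass equation over `A`
whose reduction `W₀.map ρ` has `Δ ≠ 0`.  `redFun` maps an integral point to its reduction (and everything else
to `0`).  It is additive on every pair `P, Q` such that none of `P, Q, P + Q, P - Q` is a nonzero point of the kernel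
of reduction (`redFun_add`); in particular it is an injective homomorphism on every subgroup meeting the kernel of
reduction trivially (`exists_redT`).  All residue characteristics are allowed.
-/

set_option autoImplicit false

open WeierstrassCurve WeierstrassCurve.Affine WeierstrassCurve.Affine.Point
open Fermat.Agent.S13

namespace Fermat.Agent.S58.Red

variable {K : Type*} [Field K] (A : ValuationSubring K) {Ω : Type*} [Field Ω] (ρ : A →+* Ω)

section basic

variable (hρ : ∀ a : A, ρ a = 0 ↔ (a : K) ∈ A.nonunits)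

include hρ in
theorem val_lt_one_iff (c : A) : A.valuation (c : K) < 1 ↔ ρ c = 0 := by
  rw [hρ, ValuationSubring.mem_nonunits_iff]

include hρ in
theorem val_eq_one_iff (c : A) : A.valuation (c : K) = 1 ↔ ρ c ≠ 0 := by
  rw [Ne, ← val_lt_one_iff A ρ hρ, not_lt]
  exact ⟨fun h => h.ge, fun h => le_antisymm (A.valuation_le_one c) h⟩

include hρ in
/-- division by a unit. -/
theorem exists_div (N u : A) (hu : ρ u ≠ 0) : ∃ l : A, (l : K) = (N : K) / (u : K) ∧ ρ l = ρ N / ρ u := by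
  have hu1 : A.valuation (u : K) = 1 := (val_eq_one_iff A ρ hρ u).2 hu
  have hu0 : (u : K) ≠ 0 := by
    intro h
    rw [h, _root_.map_zero] at hu1
    exact zero_ne_one hu1
  have hmem : (N : K) / (u : K) ∈ A := by
    rw [← A.valuation_le_one_iff, map_div₀, hu1, div_one]
    exact A.valuation_le_one N
  refine ⟨⟨_, hmem⟩, rfl, ?_⟩
  rw [eq_div_iff hu, ← map_mul]
  congr 1
  apply Subtype.ext
  push_cast
  exact div_mul_cancel₀ _ hu0

end basic

theorem red_two : ρ 2 = 2 := map_ofNat ρ 2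
theorem red_three : ρ 3 = 3 := map_ofNat ρ 3
theorem coe_two : ((2 : A) : K) = 2 := rfl
theorem coe_three : ((3 : A) : K) = 3 := rfl

variable (W₀ : WeierstrassCurve A)

theorem integralCoeffs : IntegralCoeffs A.valuation (W₀.map A.subtype).toAffine :=
  ⟨A.valuation_le_one _, A.valuation_le_one _, A.valuation_le_one _, A.valuation_le_one _,
    A.valuation_le_one _⟩

theorem equation_of_coe {a b : A} (h : (W₀.map A.subtype).toAffine.Equation (a : K) (b : K)) :
    W₀.toAffine.Equation a b :=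
  (Affine.map_equation (W := W₀.toAffine) (f := A.subtype) Subtype.val_injective a b).1 h

theorem nonsingular_red (hΔ : (W₀.map ρ).Δ ≠ 0) {a b : A}
    (h : (W₀.map A.subtype).toAffine.Equation (a : K) (b : K)) :
    (W₀.map ρ).toAffine.Nonsingular (ρ a) (ρ b) :=
  ((W₀.map ρ).toAffine.equation_iff_nonsingular_of_Δ_ne_zero hΔ).1
    (Affine.Equation.map (W := W₀.toAffine) ρ (equation_of_coe A W₀ h))

/-- the reduction map, as a function (junk value `0` at the non-integral points). -/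
noncomputable def redFun (hΔ : (W₀.map ρ).Δ ≠ 0) :
    (W₀.map A.subtype).toAffine.Point → (W₀.map ρ).toAffine.Point
  | .zero => 0
  | .some x y h =>
    open Classical in
    if hxy : x ∈ A ∧ y ∈ A then
      Point.some (ρ ⟨x, hxy.1⟩) (ρ ⟨y, hxy.2⟩)
        (nonsingular_red A ρ W₀ hΔ (a := ⟨x, hxy.1⟩) (b := ⟨y, hxy.2⟩) h.1)
    else 0

variable (hΔ : (W₀.map ρ).Δ ≠ 0)

theorem redFun_zero : redFun A ρ W₀ hΔ 0 = 0 := rfl

theorem redFun_eq {x y : K} (h : (W₀.map A.subtype).toAffine.Nonsingular x y) (a b : A)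
    (hx : x = a) (hy : y = b) {x' y' : Ω} (h' : (W₀.map ρ).toAffine.Nonsingular x' y')
    (hx' : x' = ρ a) (hy' : y' = ρ b) :
    redFun A ρ W₀ hΔ (Point.some x y h) = Point.some x' y' h' := by
  subst hx hy hx' hy'
  simp only [redFun, dif_pos (show (a : K) ∈ A ∧ (b : K) ∈ A from ⟨a.2, b.2⟩)]

/-- a nonzero point outside the kernel of reduction has integral coordinates. -/
theorem exists_coe {x y : K} (h : (W₀.map A.subtype).toAffine.Nonsingular x y)
    (hx : ¬ 1 < A.valuation x) : ∃ a b : A, x = a ∧ y = b := by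
  rw [not_lt] at hx
  have hy := R1.val_y_le_one A.valuation (integralCoeffs A W₀) h.1 hx
  exact ⟨⟨x, (A.valuation_le_one_iff _).1 hx⟩, ⟨y, (A.valuation_le_one_iff _).1 hy⟩, rfl, rfl⟩

theorem some_congr {F : Type*} [Field F] (W' : WeierstrassCurve.Affine F) {x x' y y' : F} (hx : x = x')
    (hy : y = y') (h : W'.Nonsingular x y) (h' : W'.Nonsingular x' y') :
    Point.some x y h = Point.some x' y' h' := by
  subst hx; subst hy; rfl

theorem coe_negY (a b : A) :
    (W₀.map A.subtype).toAffine.negY (a : K) (b : K) = ((W₀.toAffine.negY a b : A) : K) :=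
  Affine.map_negY (W' := W₀.toAffine) A.subtype a b

theorem red_negY (a b : A) : (W₀.map ρ).toAffine.negY (ρ a) (ρ b) = ρ (W₀.toAffine.negY a b) :=
  Affine.map_negY (W' := W₀.toAffine) ρ a b

section add

variable (hρ : ∀ a : A, ρ a = 0 ↔ (a : K) ∈ A.nonunits)

local notation "v" => A.valuation

include hρ hΔ in
/-- every integral point has nonsingular reduction (in the form used by `S13`). -/
theorem goodRed {a b : A} (h : (W₀.map A.subtype).toAffine.Equation (a : K) (b : K)) :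
    v ((W₀.map A.subtype).toAffine.a₁ * (b : K) - (3 * (a : K) ^ 2 + 2 * (W₀.map A.subtype).toAffine.a₂ * (a : K) + (W₀.map A.subtype).toAffine.a₄)) = 1 ∨
      v (2 * (b : K) + (W₀.map A.subtype).toAffine.a₁ * (a : K) + (W₀.map A.subtype).toAffine.a₃) = 1 := by
  have hns := nonsingular_red A ρ W₀ hΔ h
  rw [nonsingular_iff'] at hns
  rcases hns.2 with h1 | h1
  · left
    have := (val_eq_one_iff A ρ hρ (W₀.a₁ * b - (3 * a ^ 2 + 2 * W₀.a₂ * a + W₀.a₄))).2
      (by simpa [red_two, red_three] using h1)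
    simpa [coe_two, coe_three] using this
  · right
    have := (val_eq_one_iff A ρ hρ (2 * b + W₀.a₁ * a + W₀.a₃)).2 (by simpa [red_two] using h1)
    simpa [coe_two] using this

variable [DecidableEq K]

include hρ hΔ in
/-- two integral points with the same reduction differ by a point of the kernel of reduction. -/
theorem inE1_sub_of_red_eq {a b a' b' : A} (h : (W₀.map A.subtype).toAffine.Nonsingular (a : K) (b : K))
    (h' : (W₀.map A.subtype).toAffine.Nonsingular (a' : K) (b' : K)) (hx : ρ a' = ρ a) (hy : ρ b' = ρ b) :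
    InE1 v (Point.some _ _ h' - Point.some _ _ h) := by
  refine inE1_sub_of_same_reduction v (integralCoeffs A W₀) h h' (A.valuation_le_one a)
    (A.valuation_le_one b) ?_ ?_ (goodRed A ρ W₀ hΔ hρ h.1)
  · have := (val_lt_one_iff A ρ hρ (a' - a)).2 (by rw [map_sub, hx, sub_self])
    simpa using this
  · have := (val_lt_one_iff A ρ hρ (b' - b)).2 (by rw [map_sub, hy, sub_self])
    simpa using this

include hρ hΔ in
theorem not_opp {a₁ b₁ a₂ b₂ : A} (h₁ : (W₀.map A.subtype).toAffine.Nonsingular (a₁ : K) (b₁ : K))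
    (h₂ : (W₀.map A.subtype).toAffine.Nonsingular (a₂ : K) (b₂ : K))
    (hxy : ¬ ((a₁ : K) = a₂ ∧ (b₁ : K) = (W₀.map A.subtype).toAffine.negY (a₂ : K) (b₂ : K)))
    (hs : InE1 v (Point.some _ _ h₁ + Point.some _ _ h₂) →
      Point.some _ _ h₁ + Point.some _ _ h₂ = 0) :
    ¬ (ρ a₁ = ρ a₂ ∧ ρ b₁ = (W₀.map ρ).toAffine.negY (ρ a₂) (ρ b₂)) := by
  rintro ⟨e1, e2⟩
  rw [red_negY] at e2
  have h₂' : (W₀.map A.subtype).toAffine.Nonsingular (a₂ : K) ((W₀.toAffine.negY a₂ b₂ : A) : K) := by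
    rw [← coe_negY]
    exact (Affine.nonsingular_neg ..).2 h₂
  have hneg : - Point.some _ _ h₂ = Point.some _ _ h₂' := by
    rw [Point.neg_some]
    exact some_congr _ rfl (coe_negY A W₀ a₂ b₂) _ _
  have := inE1_sub_of_red_eq A ρ W₀ hΔ hρ h₂' h₁ e1 e2
  rw [← hneg, sub_neg_eq_add] at this
  have h0 := hs this
  rw [Point.add_some hxy] at h0
  exact Point.some_ne_zero _ h0

variable [DecidableEq Ω]

include hρ hΔ in
/-- the slope is integral and reduces to the slope. -/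
theorem exists_slope {a₁ b₁ a₂ b₂ : A} (h₁ : (W₀.map A.subtype).toAffine.Nonsingular (a₁ : K) (b₁ : K))
    (h₂ : (W₀.map A.subtype).toAffine.Nonsingular (a₂ : K) (b₂ : K))
    (hxy : ¬ ((a₁ : K) = a₂ ∧ (b₁ : K) = (W₀.map A.subtype).toAffine.negY (a₂ : K) (b₂ : K)))
    (hs : InE1 v (Point.some _ _ h₁ + Point.some _ _ h₂) →
      Point.some _ _ h₁ + Point.some _ _ h₂ = 0)
    (hd : InE1 v (Point.some _ _ h₁ - Point.some _ _ h₂) →
      Point.some _ _ h₁ - Point.some _ _ h₂ = 0) :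
    ∃ l : A, (W₀.map A.subtype).toAffine.slope (a₁ : K) (a₂ : K) (b₁ : K) (b₂ : K) = l ∧
      (W₀.map ρ).toAffine.slope (ρ a₁) (ρ a₂) (ρ b₁) (ρ b₂) = ρ l := by
  have hopp := not_opp A ρ W₀ hΔ hρ h₁ h₂ hxy hs
  by_cases hX : (a₁ : K) = a₂
  · have hY : (b₁ : K) ≠ (W₀.map A.subtype).toAffine.negY (a₂ : K) (b₂ : K) := fun h => hxy ⟨hX, h⟩
    have hX' : a₁ = a₂ := Subtype.ext hX
    subst hX'
    have hY' : ρ b₁ ≠ (W₀.map ρ).toAffine.negY (ρ a₁) (ρ b₂) := fun h => hopp ⟨rfl, h⟩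
    have hb : b₁ = b₂ := by
      rcases Affine.Y_eq_of_X_eq h₁.1 h₂.1 rfl with e | e
      · exact Subtype.ext e
      · exact absurd e hY
    subst hb
    rw [Affine.slope_of_Y_ne rfl hY, Affine.slope_of_Y_ne rfl hY']
    obtain ⟨l, hl, hl'⟩ := exists_div A ρ hρ
      (3 * a₁ ^ 2 + 2 * W₀.a₂ * a₁ + W₀.a₄ - W₀.a₁ * b₁) (b₁ - W₀.toAffine.negY a₁ b₁)
      (by rw [map_sub, ← red_negY]; exact sub_ne_zero.2 hY')
    refine ⟨l, ?_, ?_⟩
    · rw [hl, coe_negY]
      simp [coe_two, coe_three]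
    · rw [hl', red_negY]
      simp [red_two, red_three]
  · have hX' : ρ a₁ ≠ ρ a₂ := by
      intro e
      have n₁ := nonsingular_red A ρ W₀ hΔ h₁.1
      have n₂ := nonsingular_red A ρ W₀ hΔ h₂.1
      rcases Affine.Y_eq_of_X_eq n₁.1 n₂.1 e with e' | e'
      · have := hd (inE1_sub_of_red_eq A ρ W₀ hΔ hρ h₂ h₁ e e')
        rw [sub_eq_zero, Point.some.injEq] at this
        exact hX this.1
      · exact hopp ⟨e, e'⟩
    rw [Affine.slope_of_X_ne hX, Affine.slope_of_X_ne hX']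
    obtain ⟨l, hl, hl'⟩ := exists_div A ρ hρ (b₁ - b₂) (a₁ - a₂)
      (by rw [map_sub]; exact sub_ne_zero.2 hX')
    refine ⟨l, ?_, ?_⟩
    · rw [hl]
      simp
    · rw [hl']
      simp

include hρ in
/-- **additivity of the reduction map** away from the kernel of reduction. -/
theorem redFun_add (P Q : (W₀.map A.subtype).toAffine.Point) (hP : InE1 v P → P = 0) (hQ : InE1 v Q → Q = 0)
    (hs : InE1 v (P + Q) → P + Q = 0) (hd : InE1 v (P - Q) → P - Q = 0) :
    redFun A ρ W₀ hΔ (P + Q) = redFun A ρ W₀ hΔ P + redFun A ρ W₀ hΔ Q := by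
  rcases P with _ | ⟨x₁, y₁, h₁⟩
  · change redFun A ρ W₀ hΔ (0 + Q) = 0 + redFun A ρ W₀ hΔ Q
    rw [zero_add, zero_add]
  rcases Q with _ | ⟨x₂, y₂, h₂⟩
  · change redFun A ρ W₀ hΔ (Point.some _ _ h₁ + 0) = redFun A ρ W₀ hΔ (Point.some _ _ h₁) + 0
    rw [add_zero, add_zero]
  obtain ⟨a₁, b₁, rfl, rfl⟩ := exists_coe A W₀ h₁ (fun h => Point.some_ne_zero _ (hP h))
  obtain ⟨a₂, b₂, rfl, rfl⟩ := exists_coe A W₀ h₂ (fun h => Point.some_ne_zero _ (hQ h))
  rw [redFun_eq A ρ W₀ hΔ h₁ a₁ b₁ rfl rfl (nonsingular_red A ρ W₀ hΔ h₁.1) rfl rfl,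
    redFun_eq A ρ W₀ hΔ h₂ a₂ b₂ rfl rfl (nonsingular_red A ρ W₀ hΔ h₂.1) rfl rfl]
  by_cases hxy : (a₁ : K) = a₂ ∧ (b₁ : K) = (W₀.map A.subtype).toAffine.negY (a₂ : K) (b₂ : K)
  · rw [Point.add_of_Y_eq hxy.1 hxy.2, Point.add_of_Y_eq (congrArg ρ (Subtype.ext hxy.1))
      (by
        rw [red_negY]
        refine congrArg ρ (Subtype.ext ?_)
        rw [← coe_negY]
        exact hxy.2)]
    rfl
  · have hopp := not_opp A ρ W₀ hΔ hρ h₁ h₂ hxy hs
    obtain ⟨l, hl, hl'⟩ := exists_slope A ρ W₀ hΔ hρ h₁ h₂ hxy hs hd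
    rw [Point.add_some hxy, Point.add_some hopp]
    refine redFun_eq A ρ W₀ hΔ _ (W₀.toAffine.addX a₁ a₂ l) (W₀.toAffine.addY a₁ a₂ b₁ l) ?_ ?_ _
      ?_ ?_
    · rw [hl]
      exact Affine.map_addX (W' := W₀.toAffine) A.subtype a₁ a₂ l
    · rw [hl]
      exact Affine.map_addY (W' := W₀.toAffine) A.subtype a₁ b₁ a₂ l
    · rw [hl']
      exact Affine.map_addX (W' := W₀.toAffine) ρ a₁ a₂ l
    · rw [hl']
      exact Affine.map_addY (W' := W₀.toAffine) ρ a₁ b₁ a₂ l

include hρ hΔ in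
/-- the reduction homomorphism on a subgroup meeting the kernel of reduction trivially. -/
theorem exists_redT (T : AddSubgroup (W₀.map A.subtype).toAffine.Point) (hT : ∀ P ∈ T, InE1 v P → P = 0) :
    ∃ r : T →+ (W₀.map ρ).toAffine.Point, Function.Injective r ∧
      ∀ (x y : K) (h : (W₀.map A.subtype).toAffine.Nonsingular x y) (hP : Point.some x y h ∈ T),
        ∃ (hx : x ∈ A) (hy : y ∈ A) (hns : (W₀.map ρ).toAffine.Nonsingular (ρ ⟨x, hx⟩) (ρ ⟨y, hy⟩)),
          r ⟨_, hP⟩ = Point.some _ _ hns := by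
  have hsome : ∀ (x y : K) (h : (W₀.map A.subtype).toAffine.Nonsingular x y) (hP : Point.some x y h ∈ T),
      ∃ (hx : x ∈ A) (hy : y ∈ A) (hns : (W₀.map ρ).toAffine.Nonsingular (ρ ⟨x, hx⟩) (ρ ⟨y, hy⟩)),
        redFun A ρ W₀ hΔ (Point.some x y h) = Point.some _ _ hns := by
    intro x y h hP
    obtain ⟨a, b, rfl, rfl⟩ := exists_coe A W₀ h (fun h' => Point.some_ne_zero _ (hT _ hP h'))
    exact ⟨a.2, b.2, nonsingular_red A ρ W₀ hΔ h.1, redFun_eq A ρ W₀ hΔ h a b rfl rfl _ rfl rfl⟩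
  refine ⟨AddMonoidHom.mk' (fun P => redFun A ρ W₀ hΔ (P : (W₀.map A.subtype).toAffine.Point)) fun P Q => ?_, ?_, ?_⟩
  · exact redFun_add A ρ W₀ hΔ hρ P Q (hT _ P.2) (hT _ Q.2) (hT _ (T.add_mem P.2 Q.2))
      (hT _ (T.sub_mem P.2 Q.2))
  · rw [injective_iff_map_eq_zero]
    rintro ⟨P, hP⟩ h0
    rw [AddMonoidHom.mk'_apply] at h0
    rcases P with _ | ⟨x, y, h⟩
    · rfl
    · obtain ⟨hx, hy, hns, e⟩ := hsome x y h hP
      change redFun A ρ W₀ hΔ (Point.some x y h) = 0 at h0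
      rw [e] at h0
      exact absurd h0 (Point.some_ne_zero _)
  · intro x y h hP
    exact hsome x y h hP

end add

/-- `exists_redT` for curves that are only propositionally equal to the two base changes of `W₀`. -/
theorem exists_redT' [DecidableEq K] [DecidableEq Ω]
    (hρ : ∀ a : A, ρ a = 0 ↔ (a : K) ∈ A.nonunits) (E : WeierstrassCurve.Affine K)
    (hE : E = (W₀.map A.subtype).toAffine) (C : WeierstrassCurve.Affine Ω)
    (hC : C = (W₀.map ρ).toAffine) (hΔ : C.Δ ≠ 0) (T : AddSubgroup E.Point)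
    (hT : ∀ P ∈ T, InE1 A.valuation P → P = 0) :
    ∃ r : T →+ C.Point, Function.Injective r ∧
      ∀ (x y : K) (h : E.Nonsingular x y) (hP : Point.some x y h ∈ T),
        ∃ (hx : x ∈ A) (hy : y ∈ A) (hns : C.Nonsingular (ρ ⟨x, hx⟩) (ρ ⟨y, hy⟩)),
          r ⟨_, hP⟩ = Point.some _ _ hns := by
  subst hE hC
  exact exists_redT A ρ W₀ hΔ hρ T hT

end Fermat.Agent.S58.Red
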