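import Mathlib
import Fermat.Agent.S13.ModP
import Fermat.Agent.S58.Contracts
import Fermat.Agent.S58.Red.Hom

/-!
# S58, block [RED], part 2 : the Eichler-Shimura relation on the prime-to-`ℓ` odd torsion at a good prime `ℓ`

`frobTors_of_CH : CHStatement → ∀ W, W.Δ ≠ 0 → FrobTors W`  (all `ℓ`, including 2 and 3).
-/

set_option autoImplicit false
set_option linter.style.haveILetI false

open WeierstrassCurve WeierstrassCurve.Affine WeierstrassCurve.Affine.Point
open Fermat.Agent.S13 Fermat.Agent.S52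

namespace Fermat.Agent.S58.Red

local notation "Qb" => AlgebraicClosure ℚ
local notation "GQ" => (AlgebraicClosure ℚ ≃ₐ[ℚ] AlgebraicClosure ℚ)

/-- the kernel of reduction has no odd torsion of order prime to the residue characteristic. -/
theorem no_torsion_E1 {K : Type*} [Field K] [DecidableEq K] {Γ₀ : Type*}
    [LinearOrderedCommGroupWithZero Γ₀] (v : Valuation K Γ₀) (W : WeierstrassCurve ℤ) {n : ℕ}
    (hn : Odd n) (hnv : v (n : K) = 1) (P : (W.map (Int.castRingHom K)).toAffine.Point)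
    (hP : (n : ℤ) • P = 0) (h1 : InE1 v P) : P = 0 := by
  rcases P with _ | ⟨x, y, h⟩
  · rfl
  exfalso
  obtain ⟨m, rfl⟩ := hn
  rcases Nat.eq_zero_or_pos m with rfl | hm
  · rw [mul_zero, zero_add, Nat.cast_one, one_smul] at hP
    exact Point.some_ne_zero _ hP
  have h2 : (2 * m + 1) • (Point.some x y h : (W.map (Int.castRingHom K)).toAffine.Point) = 0 := by
    rw [← natCast_zsmul]
    exact hP
  rw [smul_eq_zero_iff _ h m hm, hpoly_map] at h2
  have h3 := root_integral v (hpoly W m) (2 * m ^ 2 + 2 * m) (hpoly_natDegree_le W m hm)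
    (by
      rw [hpoly_coeff W m hm, Int.cast_neg, Valuation.map_neg, Int.cast_natCast]
      exact hnv) x h2
  exact absurd h1 (not_lt.2 h3)

/-- the abstract core. -/
theorem frob_core {K : Type*} [Field K] [DecidableEq K] (A : ValuationSubring K) (ℓ : ℕ)
    [Fact ℓ.Prime] {Ω : Type*} [Field Ω] [DecidableEq Ω] [Algebra (ZMod ℓ) Ω] (ρ : A →+* Ω)
    (hρ : ∀ a : A, ρ a = 0 ↔ (a : K) ∈ A.nonunits) (W : WeierstrassCurve ℤ)
    (E : WeierstrassCurve.Affine K) (hE : E = (W.map (Int.castRingHom K)).toAffine)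
    (hΔ : (W.reductionMod ℓ).Δ ≠ 0) (a : ℤ)
    (hCH : ∀ P : ((W.reductionMod ℓ)⁄Ω).Point,
      (2 : ℤ) • (frobPt ℓ (W.reductionMod ℓ) (frobPt ℓ (W.reductionMod ℓ) P)
        - a • frobPt ℓ (W.reductionMod ℓ) P + (ℓ : ℤ) • P) = 0)
    (s : E.Point →+ E.Point) (τ : K → K)
    (hτρ : ∀ x (hx : x ∈ A) (hx' : τ x ∈ A), ρ ⟨τ x, hx'⟩ = ρ ⟨x, hx⟩ ^ ℓ)
    (hs : ∀ x y (h : E.Nonsingular x y), ∃ h' : E.Nonsingular (τ x) (τ y),
      s (Point.some x y h) = Point.some _ _ h')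
    {n : ℕ} (hn : Odd n) (hnv : A.valuation (n : K) = 1) (P : E.Point) (hP : (n : ℤ) • P = 0) :
    s (s P) - a • s P + (ℓ : ℤ) • P = 0 := by
  set C : WeierstrassCurve (ZMod ℓ) := W.reductionMod ℓ with hC
  set T : AddSubgroup E.Point := (zsmulAddGroupHom (n : ℤ) : E.Point →+ E.Point).ker with hTdef
  have hmemT : ∀ Q : E.Point, Q ∈ T ↔ (n : ℤ) • Q = 0 := fun Q => by
    rw [hTdef, AddMonoidHom.mem_ker, zsmulAddGroupHom_apply]
  have hT : ∀ Q ∈ T, InE1 A.valuation Q → Q = 0 := by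
    intro Q hQ h1
    rw [hmemT] at hQ
    subst hE
    exact no_torsion_E1 A.valuation W hn hnv Q hQ h1
  obtain ⟨r, hrinj, hr⟩ := exists_redT' A ρ (W.map (Int.castRingHom A)) hρ E
    (by
      rw [hE, WeierstrassCurve.map_map]
      exact congrArg (fun f => (W.map f).toAffine) (RingHom.ext_int _ _)) (C⁄Ω)
    (by
      change (C.map (algebraMap (ZMod ℓ) Ω)).toAffine = _
      rw [hC, WeierstrassCurve.reductionMod, WeierstrassCurve.map_map, WeierstrassCurve.map_map]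
      exact congrArg (fun f => (W.map f).toAffine) (RingHom.ext_int _ _))
    (by
      change (C.map (algebraMap (ZMod ℓ) Ω)).Δ ≠ 0
      rw [WeierstrassCurve.map_Δ]
      exact (map_ne_zero _).2 hΔ) T hT
  -- the restriction of `s` to `T`
  let sT : T →+ T := (s.comp T.subtype).codRestrict T (fun Q => by
    rw [hmemT, AddMonoidHom.comp_apply, ← map_zsmul]
    have := (hmemT _).1 Q.2
    rw [AddSubgroup.coe_subtype, this, _root_.map_zero])
  have hsT : ∀ Q : T, ((sT Q : T) : E.Point) = s Q := fun Q => rfl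
  have hfr : ∀ Q : T, r (sT Q) = frobPt ℓ C (r Q) := by
    rintro ⟨Q, hQ⟩
    rcases Q with _ | ⟨x, y, h⟩
    · have e0 : (⟨Point.zero, hQ⟩ : T) = 0 := rfl
      rw [e0, _root_.map_zero, _root_.map_zero, _root_.map_zero]
    · obtain ⟨h', e⟩ := hs x y h
      have hQ' : Point.some _ _ h' ∈ T := by
        rw [← e]
        exact (sT ⟨_, hQ⟩).2
      have e1 : sT ⟨_, hQ⟩ = ⟨_, hQ'⟩ := Subtype.ext e
      obtain ⟨hx, hy, hns, e2⟩ := hr x y h hQ
      obtain ⟨hx', hy', hns', e3⟩ := hr _ _ h' hQ'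
      obtain ⟨h'', e4⟩ := frobPt_some ℓ C hns
      rw [e1, e2, e3, e4, Point.some.injEq]
      exact ⟨hτρ x hx hx', hτρ y hy hy'⟩
  set P' : T := ⟨P, (hmemT P).2 hP⟩ with hP'
  set Q : T := sT (sT P') - a • sT P' + (ℓ : ℤ) • P' with hQ
  have hrQ : r ((2 : ℤ) • Q) = 0 := by
    rw [map_zsmul, hQ, map_add, map_sub, map_zsmul, map_zsmul, hfr, hfr]
    exact hCH (r P')
  have h2Q : (2 : ℤ) • Q = 0 := hrinj (hrQ.trans (_root_.map_zero r).symm)
  have hnQ : (n : ℤ) • Q = 0 := Subtype.ext ((hmemT _).1 Q.2)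
  obtain ⟨k, hk⟩ := hn
  have hQ0 : Q = 0 := by
    have : Q = (n : ℤ) • Q - (k : ℤ) • ((2 : ℤ) • Q) := by
      rw [smul_smul, ← sub_smul, hk]
      push_cast
      rw [show (2 * (k : ℤ) + 1 - k * 2) = 1 by ring, one_smul]
    rw [this, hnQ, h2Q, smul_zero, sub_zero]
  have := congrArg (Subtype.val) hQ0
  exact this

/-- A Frobenius at `A` is congruent to the `ℓ`-th power map modulo the maximal ideal. -/
theorem frob_sub_pow_mem_nonunits {A : ValuationSubring Qb} {σ : GQ} {ℓ : ℕ}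
    (h : A.IsFrobeniusAt σ ℓ) (x : Qb) (hx : x ∈ A) : σ x - x ^ ℓ ∈ A.nonunits := by
  obtain ⟨hσ, hfrob⟩ := h
  have h1 := hfrob (IsLocalRing.residue A ⟨x, hx⟩)
  rw [← IsLocalRing.ResidueField.residue_smul, ← map_pow, ← sub_eq_zero, ← map_sub,
    IsLocalRing.residue_eq_zero_iff] at h1
  have h2 := (ValuationSubring.mem_nonunits_iff_exists_mem_maximalIdeal (A := A)).2 ⟨_, h1⟩
  exact h2

/-- **[RED]** -/
theorem frobTors_of_CH (hCH : CHStatement) (W : WeierstrassCurve ℤ) (_hD : W.Δ ≠ 0) :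
    FrobTors W := by
  intro ℓ n hℓ hgood hn hℓn A hA σ hσ P hP
  classical
  haveI : Fact ℓ.Prime := ⟨hℓ⟩
  -- the residue field and the big field
  let k := IsLocalRing.ResidueField A
  let Ω := RatFunc k
  have hℓA : ((ℓ : A) : Qb) ∈ A.nonunits := by
    have : ((ℓ : A) : Qb) = (ℓ : Qb) := by simp
    rw [this]
    exact hA
  have hℓk : (ℓ : k) = 0 := by
    have h1 : (ℓ : A) ∈ IsLocalRing.maximalIdeal A := by
      obtain ⟨ha, hm⟩ := (ValuationSubring.mem_nonunits_iff_exists_mem_maximalIdeal (A := A)).1 hℓA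
      exact hm
    have h2 := (IsLocalRing.residue_eq_zero_iff (ℓ : A)).2 h1
    rwa [map_natCast] at h2
  haveI : CharP k ℓ := (CharP.charP_iff_prime_eq_zero hℓ).2 hℓk
  letI : Algebra (ZMod ℓ) k := ZMod.algebra k ℓ
  letI : Algebra (ZMod ℓ) Ω := inferInstance
  haveI : IsScalarTower (ZMod ℓ) k Ω := inferInstance
  have hΩ : ∃ x : Ω, Transcendental (ZMod ℓ) x :=
    ⟨RatFunc.X, (RatFunc.transcendental_X (K := k)).restrictScalars (R := ZMod ℓ)
      (algebraMap (ZMod ℓ) k).injective⟩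
  let ρ : A →+* Ω := (algebraMap k Ω).comp (IsLocalRing.residue A)
  have hρ : ∀ a : A, ρ a = 0 ↔ (a : Qb) ∈ A.nonunits := by
    intro a
    change algebraMap k Ω (IsLocalRing.residue A a) = 0 ↔ _
    rw [map_eq_zero, IsLocalRing.residue_eq_zero_iff,
      ValuationSubring.mem_nonunits_iff_exists_mem_maximalIdeal]
    exact ⟨fun h => ⟨a.2, h⟩, fun ⟨_, h⟩ => h⟩
  have hτρ : ∀ x (hx : x ∈ A) (hx' : σ x ∈ A), ρ ⟨σ x, hx'⟩ = ρ ⟨x, hx⟩ ^ ℓ := by
    intro x hx hx'
    rw [← map_pow, ← sub_eq_zero, ← map_sub, hρ]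
    exact frob_sub_pow_mem_nonunits hσ x hx
  have hWΔ : (W.reductionMod ℓ).Δ ≠ 0 := by
    rw [WeierstrassCurve.reductionMod, WeierstrassCurve.map_Δ]
    intro h
    exact hgood ((ZMod.intCast_zmod_eq_zero_iff_dvd _ _).1 h)
  have hnv : A.valuation ((n : ℕ) : Qb) = 1 := by
    have hle : A.valuation ((n : ℕ) : Qb) ≤ 1 := (A.valuation_le_one_iff _).2 (natCast_mem A n)
    refine le_antisymm hle (not_lt.1 fun hlt => ?_)
    have hℓv : A.valuation ((ℓ : ℕ) : Qb) < 1 := (ValuationSubring.mem_nonunits_iff A).1 hA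
    have hcop : IsCoprime (n : ℤ) (ℓ : ℤ) :=
      Nat.isCoprime_iff_coprime.2 ((Nat.Prime.coprime_iff_not_dvd hℓ).2 hℓn).symm
    obtain ⟨u, w, huw⟩ := hcop
    have h1 : (1 : Qb) = (u : Qb) * (n : Qb) + (w : Qb) * (ℓ : Qb) := by exact_mod_cast huw.symm
    have hu : A.valuation (u : Qb) ≤ 1 := (A.valuation_le_one_iff _).2 (intCast_mem A u)
    have hw : A.valuation (w : Qb) ≤ 1 := (A.valuation_le_one_iff _).2 (intCast_mem A w)
    have h2 : A.valuation (1 : Qb) < 1 := by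
      rw [h1]
      refine lt_of_le_of_lt (A.valuation.map_add _ _) (max_lt ?_ ?_)
      · rw [map_mul]
        exact (mul_le_of_le_one_left' hu).trans_lt hlt
      · rw [map_mul]
        exact (mul_le_of_le_one_left' hw).trans_lt hℓv
    rw [map_one] at h2
    exact lt_irrefl _ h2
  exact frob_core A ℓ ρ hρ W ((EQ W)⁄Qb)
    (by
      change ((W.map (Int.castRingHom ℚ)).map (algebraMap ℚ Qb)).toAffine = _
      rw [WeierstrassCurve.map_map]
      exact congrArg (fun f => (W.map f).toAffine) (RingHom.ext_int _ _))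
    hWΔ (W.apOfModel ℓ) (fun R => hCH ℓ (W.reductionMod ℓ) hWΔ Ω hΩ R)
    (DistribSMul.toAddMonoidHom _ σ) σ hτρ
    (fun x y h => ⟨_, Point.map_some (W' := EQ W) σ.toAlgHom h⟩) hn hnv P hP

end Fermat.Agent.S58.Red
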