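import Fermat.Agent.S58.Red.Defs

/-!
# S58 / Red / TriDown : collinear nonsingular points have sum zero (all characteristics)   (package RED-2)
-/

set_option autoImplicit false

open WeierstrassCurve WeierstrassCurve.Affine WeierstrassCurve.Affine.Point

namespace Fermat.Agent.S58.Red

/-- MODEL: `Fermat/Agent/S41/G/TriConv.lean` (`add_eq_zero_of_tri`: the case `a₁ = a₃ = 0`, `2 ≠ 0`).
PROOF.  Let `l, k` be given by `T`.
(1) tangency: if `x₁ = x₂` then `y₁ = y₂` and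
  `3 x₁² + 2 a₂ x₁ + a₄ - a₁ y₁ = l (2 y₁ + a₁ x₁ + a₃)`   (`linear_combination` of the 4th and 5th relation and `y₁ = l x₁ + k`).
(2) `hxy : ¬ (x₁ = x₂ ∧ y₁ = W'.negY x₂ y₂)`: otherwise `2 y₁ + a₁ x₁ + a₃ = 0`, so by (1) both partial derivatives vanish:
  contradiction with `(nonsingular_iff _ _).1 h₁`.
(3) `W'.slope x₁ x₂ y₁ y₂ = l`: `slope_of_X_ne` (+ `y₁ - y₂ = l (x₁ - x₂)`) resp. `slope_of_Y_ne` + (1).
(4) `Point.add_some hxy`; `addX = x₃` by the 4th relation, `addY = negY x₃ y₃`; conclude with `Point.neg_some` and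
  `neg_add_cancel` / `add_eq_zero_iff_eq_neg`. -/
theorem add_eq_zero_of_gtri {Ω : Type*} [Field Ω] [DecidableEq Ω] (W' : WeierstrassCurve.Affine Ω)
    {x₁ y₁ x₂ y₂ x₃ y₃ : Ω} (h₁ : W'.Nonsingular x₁ y₁) (h₂ : W'.Nonsingular x₂ y₂)
    (h₃ : W'.Nonsingular x₃ y₃) (T : GTri W'.a₁ W'.a₂ W'.a₃ W'.a₄ W'.a₆ x₁ y₁ x₂ y₂ x₃ y₃) :
    Point.some x₁ y₁ h₁ + Point.some x₂ y₂ h₂ + Point.some x₃ y₃ h₃ = 0 := by
  obtain ⟨l, k, e₁, e₂, e₃, v₁, v₂, v₃⟩ := T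
  -- the derivative at a double point
  have hder : x₁ = x₂ → 3 * x₁ ^ 2 + 2 * W'.a₂ * x₁ + W'.a₄ - W'.a₁ * y₁
      = l * (2 * y₁ + W'.a₁ * x₁ + W'.a₃) := by
    intro hx
    subst hx
    rw [e₁]
    linear_combination -v₂ + 2 * x₁ * v₁
  have hyy : x₁ = x₂ → y₁ = y₂ := by
    intro hx
    rw [e₁, e₂, hx]
  have hxy : ¬(x₁ = x₂ ∧ y₁ = W'.negY x₂ y₂) := by
    rintro ⟨hx, hy⟩
    rw [negY, ← hyy hx, ← hx] at hy
    have h0 : 2 * y₁ + W'.a₁ * x₁ + W'.a₃ = 0 := by linear_combination hy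
    have hd := hder hx
    rw [h0, mul_zero] at hd
    rcases ((nonsingular_iff x₁ y₁).mp h₁).2 with h | h
    · exact h (by linear_combination -hd)
    · exact h hy
  have hslope : W'.slope x₁ x₂ y₁ y₂ = l := by
    by_cases hx : x₁ = x₂
    · have hy : y₁ ≠ W'.negY x₂ y₂ := fun hy => hxy ⟨hx, hy⟩
      have h4 : y₁ - W'.negY x₁ y₁ ≠ 0 := by
        rw [← hyy hx, ← hx] at hy
        exact sub_ne_zero.mpr hy
      rw [slope_of_Y_ne hx hy, hder hx, div_eq_iff h4, negY]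
      ring
    · rw [slope_of_X_ne hx, div_eq_iff (sub_ne_zero.mpr hx), e₁, e₂]
      ring
  rw [add_eq_zero_iff_eq_neg, neg_some, add_some hxy]
  simp only [Point.some.injEq]
  have hX : W'.addX x₁ x₂ (W'.slope x₁ x₂ y₁ y₂) = x₃ := by
    rw [hslope, addX]
    linear_combination -v₁
  refine ⟨hX, ?_⟩
  rw [addY, negAddY, hX, hslope, e₁, e₃]
  congr 1
  ring

end Fermat.Agent.S58.Red
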