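import Fermat.Agent.S58.Red.Defs

/-!
# S58 / Red / TriRed : integral collinear triples reduce to collinear triples   (package RED-3)
-/

set_option autoImplicit false

namespace Fermat.Agent.S58.Red

/-- MODEL: `Fermat/Agent/S41/G/TriRed.lean` (`tri_red`).
PROOF.  `l ∈ A`: `l ^ 2 + α₁ l = x₁ + x₂ + x₃ + α₂ ∈ A`; if `l ∉ A` then `1 < v l`, `v (α₁ l) ≤ v l < v l ^ 2`, so
`v (l ^ 2 + α₁ l) = v l ^ 2 > 1` (`Valuation.map_add_eq_of_lt_left`), contradiction (`v := A.valuation`,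
`A.valuation_le_one_iff`).  (Or: `l` is integral over `A`, `A` is integrally closed.)  `k = y₁ - l x₁ ∈ A`.  Then all six relations
hold in `A` (`Subtype.ext`, `push_cast`) and one applies `ρ`. -/
theorem gtri_red {K : Type*} [Field K] (A : ValuationSubring K) {Ω : Type*} [CommRing Ω]
    (ρ : A →+* Ω) (α₁ α₂ α₃ α₄ α₆ : A) {x₁ y₁ x₂ y₂ x₃ y₃ : A}
    (T : GTri (α₁ : K) (α₂ : K) (α₃ : K) (α₄ : K) (α₆ : K) (x₁ : K) (y₁ : K) (x₂ : K) (y₂ : K)
      (x₃ : K) (y₃ : K)) :
    GTri (ρ α₁) (ρ α₂) (ρ α₃) (ρ α₄) (ρ α₆) (ρ x₁) (ρ y₁) (ρ x₂) (ρ y₂) (ρ x₃) (ρ y₃) := by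
  obtain ⟨l, k, h1, h2, h3, h4, h5, h6⟩ := T
  have hl : l ∈ A := by
    by_contra hl
    rw [← A.valuation_le_one_iff, not_le] at hl
    have hs : A.valuation (l ^ 2 + (α₁ : K) * l) ≤ 1 := by
      have : l ^ 2 + (α₁ : K) * l = ((x₁ + x₂ + x₃ + α₂ : A) : K) := by
        push_cast
        linear_combination -h4
      rw [this]
      exact A.valuation_le_one _
    have hlt : A.valuation ((α₁ : K) * l) < A.valuation (l ^ 2) := by
      rw [map_mul, map_pow, pow_two]
      have h0 : 0 < A.valuation l := lt_trans zero_lt_one hl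
      calc A.valuation (α₁ : K) * A.valuation l ≤ 1 * A.valuation l :=
            mul_le_mul_left (A.valuation_le_one α₁) _
        _ < A.valuation l * A.valuation l := by
            exact mul_lt_mul_of_pos_right hl h0
    rw [Valuation.map_add_eq_of_lt_left _ hlt, map_pow] at hs
    exact absurd (one_lt_pow₀ hl two_ne_zero) (not_lt.2 hs)
  have hk : k ∈ A := by
    have : k = ((y₁ - ⟨l, hl⟩ * x₁ : A) : K) := by
      push_cast
      linear_combination -h1
    rw [this]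
    exact Subtype.mem _
  set l' : A := ⟨l, hl⟩ with hl'
  set k' : A := ⟨k, hk⟩ with hk'
  have e1 : y₁ = l' * x₁ + k' := Subtype.ext (by push_cast; exact h1)
  have e2 : y₂ = l' * x₂ + k' := Subtype.ext (by push_cast; exact h2)
  have e3 : y₃ = l' * x₃ + k' := Subtype.ext (by push_cast; exact h3)
  have e4 : x₁ + x₂ + x₃ = l' ^ 2 + α₁ * l' - α₂ := Subtype.ext (by push_cast; exact h4)
  have e5 : x₁ * x₂ + x₁ * x₃ + x₂ * x₃ = α₄ - 2 * l' * k' - α₁ * k' - α₃ * l' :=
    Subtype.ext (by push_cast; exact h5)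
  have e6 : x₁ * x₂ * x₃ = k' ^ 2 + α₃ * k' - α₆ := Subtype.ext (by push_cast; exact h6)
  refine ⟨ρ l', ρ k', ?_, ?_, ?_, ?_, ?_, ?_⟩
  · simpa using congrArg ρ e1
  · simpa using congrArg ρ e2
  · simpa using congrArg ρ e3
  · simpa using congrArg ρ e4
  · have h := congrArg ρ e5
    simp only [map_add, map_sub, map_mul, map_ofNat] at h
    exact h
  · simpa using congrArg ρ e6

end Fermat.Agent.S58.Red
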