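import Fermat.Agent.S58.Red.TriUp
import Fermat.Agent.S58.Red.TriDown
import Fermat.Agent.S58.Red.TriRed

/-!
# S58 / Red / Core : the reduction map on integral points of a general Weierstrass curve with good reduction;
it is additive on every subgroup consisting of integral points.
-/

set_option autoImplicit false

open WeierstrassCurve WeierstrassCurve.Affine WeierstrassCurve.Affine.Point

namespace Fermat.Agent.S58.Red

/-- `E` has coefficients in `A`, `C` is its reduction along `ρ`, and `C` is nonsingular. -/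
structure RedDat {K : Type*} [Field K] (A : ValuationSubring K) {Ω : Type*} [Field Ω]
    (ρ : A →+* Ω) (E : WeierstrassCurve.Affine K) (C : WeierstrassCurve.Affine Ω) where
  α₁ : A
  α₂ : A
  α₃ : A
  α₄ : A
  α₆ : A
  e₁ : E.a₁ = α₁
  e₂ : E.a₂ = α₂
  e₃ : E.a₃ = α₃
  e₄ : E.a₄ = α₄
  e₆ : E.a₆ = α₆
  c₁ : C.a₁ = ρ α₁
  c₂ : C.a₂ = ρ α₂
  c₃ : C.a₃ = ρ α₃
  c₄ : C.a₄ = ρ α₄
  c₆ : C.a₆ = ρ α₆
  hΔ : C.Δ ≠ 0

/-- the point is `0` or has integral coordinates. -/
def IsInt {K : Type*} [Field K] (A : ValuationSubring K) {E : WeierstrassCurve.Affine K} :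
    E.Point → Prop
  | .zero => True
  | .some x y _ => x ∈ A ∧ y ∈ A

section

variable {K : Type*} [Field K] {A : ValuationSubring K} {Ω : Type*} [Field Ω]
  {ρ : A →+* Ω} {E : WeierstrassCurve.Affine K} {C : WeierstrassCurve.Affine Ω}

theorem RedDat.nonsingular (D : RedDat A ρ E C) {x y : K} (h : E.Equation x y) (hx : x ∈ A)
    (hy : y ∈ A) : C.Nonsingular (ρ ⟨x, hx⟩) (ρ ⟨y, hy⟩) := by
  rw [← C.equation_iff_nonsingular_of_Δ_ne_zero D.hΔ, Affine.equation_iff, D.c₁, D.c₂, D.c₃, D.c₄,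
    D.c₆]
  rw [Affine.equation_iff, D.e₁, D.e₂, D.e₃, D.e₄, D.e₆] at h
  have h' : (⟨y, hy⟩ : A) ^ 2 + D.α₁ * ⟨x, hx⟩ * ⟨y, hy⟩ + D.α₃ * ⟨y, hy⟩ =
      (⟨x, hx⟩ : A) ^ 3 + D.α₂ * (⟨x, hx⟩ : A) ^ 2 + D.α₄ * ⟨x, hx⟩ + D.α₆ := by
    apply Subtype.ext
    push_cast
    exact h
  have h'' := congrArg ρ h'
  simpa only [map_pow, map_add, map_mul] using h''

open Classical in
/-- the reduction map (junk `0` on non integral points). -/
noncomputable def redFun (D : RedDat A ρ E C) : E.Point → C.Point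
  | .zero => 0
  | .some x y h =>
    if hxy : x ∈ A ∧ y ∈ A then
      Point.some (ρ ⟨x, hxy.1⟩) (ρ ⟨y, hxy.2⟩) (D.nonsingular h.1 hxy.1 hxy.2)
    else 0

theorem redFun_zero (D : RedDat A ρ E C) : redFun D 0 = 0 := rfl

theorem redFun_some (D : RedDat A ρ E C) {x y : K} (h : E.Nonsingular x y) (hx : x ∈ A)
    (hy : y ∈ A) : redFun D (Point.some x y h) =
      Point.some (ρ ⟨x, hx⟩) (ρ ⟨y, hy⟩) (D.nonsingular h.1 hx hy) := by
  exact dif_pos (⟨hx, hy⟩ : x ∈ A ∧ y ∈ A)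

theorem redFun_eq_zero (D : RedDat A ρ E C) {P : E.Point} (hP : IsInt A P)
    (h : redFun D P = 0) : P = 0 := by
  rcases P with _ | ⟨x, y, hxy⟩
  · rfl
  · rw [redFun_some D hxy hP.1 hP.2] at h
    exact absurd h (Point.some_ne_zero _)

theorem Core_some_congr (C : WeierstrassCurve.Affine Ω) {x x' y y' : Ω} (hx : x = x')
    (hy : y = y') (h : C.Nonsingular x y) (h' : C.Nonsingular x' y') :
    Point.some x y h = Point.some x' y' h' := by
  subst hx; subst hy; rfl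

theorem RedDat.negY_mem (D : RedDat A ρ E C) {x y : K} (hx : x ∈ A) (hy : y ∈ A) :
    E.negY x y ∈ A := by
  rw [Affine.negY, D.e₁, D.e₃]
  exact A.sub_mem (A.sub_mem (A.neg_mem _ hy) (A.mul_mem _ _ D.α₁.2 hx)) D.α₃.2

theorem isInt_neg (D : RedDat A ρ E C) {P : E.Point} (hP : IsInt A P) : IsInt A (-P) := by
  rcases P with _ | ⟨x, y, hxy⟩
  · exact hP
  · rw [Point.neg_some]
    exact ⟨hP.1, D.negY_mem hP.1 hP.2⟩

theorem redFun_neg (D : RedDat A ρ E C) {P : E.Point} (hP : IsInt A P) :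
    redFun D (-P) = - redFun D P := by
  rcases P with _ | ⟨x, y, hxy⟩
  · rfl
  · rw [Point.neg_some, redFun_some D _ hP.1 (D.negY_mem hP.1 hP.2), redFun_some D hxy hP.1 hP.2,
      Point.neg_some]
    apply Core_some_congr _ rfl
    have e : ∀ a b : Ω, C.negY a b = -b - C.a₁ * a - C.a₃ := fun _ _ => rfl
    rw [e, D.c₁, D.c₃, ← map_neg, ← map_mul, ← map_sub, ← map_sub]
    congr 1
    apply Subtype.ext
    push_cast
    rw [← D.e₁, ← D.e₃]
    rfl

variable [DecidableEq K] [DecidableEq Ω]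

/-- three integral points of sum zero reduce to three points of sum zero. -/
theorem redFun_key (D : RedDat A ρ E C) {P Q R : E.Point} (hP : IsInt A P) (hQ : IsInt A Q)
    (hR : IsInt A R) (h : P + Q + R = 0) : redFun D P + redFun D Q + redFun D R = 0 := by
  rcases P with _ | ⟨x₁, y₁, h₁⟩
  · have h' : (0 : E.Point) + Q + R = 0 := h
    have : R = -Q := by rw [zero_add] at h'; exact (neg_eq_of_add_eq_zero_right h').symm
    show redFun D 0 + _ + _ = 0
    rw [this, redFun_zero, redFun_neg D hQ, zero_add, add_neg_cancel]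
  rcases Q with _ | ⟨x₂, y₂, h₂⟩
  · have h' : Point.some x₁ y₁ h₁ + (0 : E.Point) + R = 0 := h
    have : R = -Point.some x₁ y₁ h₁ := by
      rw [add_zero] at h'; exact (neg_eq_of_add_eq_zero_right h').symm
    show _ + redFun D 0 + _ = 0
    rw [this, redFun_zero, redFun_neg D hP, add_zero, add_neg_cancel]
  rcases R with _ | ⟨x₃, y₃, h₃⟩
  · have h' : Point.some x₁ y₁ h₁ + Point.some x₂ y₂ h₂ + (0 : E.Point) = 0 := h
    have : Point.some x₂ y₂ h₂ = -Point.some x₁ y₁ h₁ := by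
      rw [add_zero] at h'; exact (neg_eq_of_add_eq_zero_right h').symm
    show _ + _ + redFun D 0 = 0
    rw [this, redFun_zero, redFun_neg D hP, add_zero, add_neg_cancel]
  have T := gtri_of_add_eq_zero E h₁ h₂ h₃ h
  rw [D.e₁, D.e₂, D.e₃, D.e₄, D.e₆] at T
  have T' := gtri_red A ρ D.α₁ D.α₂ D.α₃ D.α₄ D.α₆ (x₁ := ⟨x₁, hP.1⟩) (y₁ := ⟨y₁, hP.2⟩)
    (x₂ := ⟨x₂, hQ.1⟩) (y₂ := ⟨y₂, hQ.2⟩) (x₃ := ⟨x₃, hR.1⟩) (y₃ := ⟨y₃, hR.2⟩) T
  rw [← D.c₁, ← D.c₂, ← D.c₃, ← D.c₄, ← D.c₆] at T'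
  rw [redFun_some D h₁ hP.1 hP.2, redFun_some D h₂ hQ.1 hQ.2, redFun_some D h₃ hR.1 hR.2]
  exact add_eq_zero_of_gtri C _ _ _ T'

/-- the reduction map is additive on a subgroup of integral points. -/
theorem redFun_add (D : RedDat A ρ E C) (T : AddSubgroup E.Point) (hT : ∀ P ∈ T, IsInt A P)
    {P Q : E.Point} (hP : P ∈ T) (hQ : Q ∈ T) : redFun D (P + Q) = redFun D P + redFun D Q := by
  have h : P + Q + -(P + Q) = 0 := add_neg_cancel _
  have hPQ := hT _ (T.add_mem hP hQ)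
  have := redFun_key D (hT P hP) (hT Q hQ) (isInt_neg D hPQ) h
  rw [redFun_neg D hPQ] at this
  exact (eq_of_sub_eq_zero (by rw [sub_eq_add_neg]; exact this)).symm

/-- the reduction homomorphism on a subgroup of integral points. -/
noncomputable def redHom (D : RedDat A ρ E C) (T : AddSubgroup E.Point)
    (hT : ∀ P ∈ T, IsInt A P) : T →+ C.Point :=
  AddMonoidHom.mk' (fun P => redFun D P.1) (fun P Q => redFun_add D T hT P.2 Q.2)

theorem redHom_apply (D : RedDat A ρ E C) (T : AddSubgroup E.Point)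
    (hT : ∀ P ∈ T, IsInt A P) (P : T) : redHom D T hT P = redFun D P.1 := rfl

theorem redHom_injective (D : RedDat A ρ E C) (T : AddSubgroup E.Point)
    (hT : ∀ P ∈ T, IsInt A P) : Function.Injective (redHom D T hT) := by
  rw [injective_iff_map_eq_zero]
  intro P hP
  exact Subtype.ext (redFun_eq_zero D (hT _ P.2) hP)

end

/-- the abstract descent of a Cayley-Hamilton relation along an injective equivariant homomorphism. -/
theorem Core_descent {T H : Type*} [AddCommGroup T] [AddCommGroup H] (r : T →+ H)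
    (hr : Function.Injective r) (s : T →+ T) (F : H →+ H) (hF : ∀ P, r (s P) = F (r P)) (a l : ℤ)
    (hCH : ∀ x : H, (2 : ℤ) • (F (F x) - a • F x + l • x) = 0) {n : ℕ} (hn : Odd n)
    (hT : ∀ P : T, (n : ℤ) • P = 0) (P : T) : s (s P) - a • s P + l • P = 0 := by
  set Q : T := s (s P) - a • s P + l • P with hQ
  have h2Q : (2 : ℤ) • Q = 0 := by
    apply hr
    rw [map_zsmul, hQ, map_add, map_sub, map_zsmul, map_zsmul, hF, hF, _root_.map_zero]
    exact hCH _
  obtain ⟨k, hk⟩ := hn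
  have : Q = (n : ℤ) • Q - (k : ℤ) • ((2 : ℤ) • Q) := by
    rw [smul_smul, ← sub_smul, hk]
    push_cast
    rw [show (2 * (k : ℤ) + 1 - k * 2) = 1 by ring, one_smul]
  rw [this, hT, h2Q, smul_zero, sub_zero]

end Fermat.Agent.S58.Red
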