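import Mathlib

/-!
# S58 / Red / Defs : collinear triples on a GENERAL Weierstrass cubic (all characteristics)

`GTri a₁ a₂ a₃ a₄ a₆ x₁ y₁ x₂ y₂ x₃ y₃` : the three points lie on a line `y = l x + k` and `x₁, x₂, x₃` are the three
roots (with multiplicity) of `x³ + a₂ x² + a₄ x + a₆ - (l x + k)² - a₁ x (l x + k) - a₃ (l x + k)`.
-/

set_option autoImplicit false

namespace Fermat.Agent.S58.Red

/-- collinear triple (Vieta form). -/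
def GTri {F : Type*} [CommRing F] (a₁ a₂ a₃ a₄ a₆ x₁ y₁ x₂ y₂ x₃ y₃ : F) : Prop :=
  ∃ l k : F, y₁ = l * x₁ + k ∧ y₂ = l * x₂ + k ∧ y₃ = l * x₃ + k ∧
    x₁ + x₂ + x₃ = l ^ 2 + a₁ * l - a₂ ∧
    x₁ * x₂ + x₁ * x₃ + x₂ * x₃ = a₄ - 2 * l * k - a₁ * k - a₃ * l ∧
    x₁ * x₂ * x₃ = k ^ 2 + a₃ * k - a₆

end Fermat.Agent.S58.Red
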