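import Fermat.Agent.S13.ModP
import Fermat.Agent.S13.R1

/-!
# S58 / Red / Integral : odd torsion points of order prime to the residue characteristic are integral
(general integral Weierstrass equation, all residue characteristics)
-/

set_option autoImplicit false

open WeierstrassCurve WeierstrassCurve.Affine WeierstrassCurve.Affine.Point Polynomial

namespace Fermat.Agent.S58.Red

theorem Integral_val_intCast_le {K : Type*} [Field K] {Γ₀ : Type*}
    [LinearOrderedCommGroupWithZero Γ₀] (v : Valuation K Γ₀) (n : ℤ) : v (n : K) ≤ 1 :=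
  (Valuation.mem_integer_iff v _).1 (intCast_mem v.integer n)

theorem torsion_integral {K : Type*} [Field K] [DecidableEq K] {Γ₀ : Type*}
    [LinearOrderedCommGroupWithZero Γ₀] (v : Valuation K Γ₀) (W : WeierstrassCurve ℤ)
    (E : WeierstrassCurve.Affine K) (hE : E = W.map (Int.castRingHom K)) {n : ℕ} (hn : Odd n)
    (hv : v (n : K) = 1) {x y : K} (h : E.Nonsingular x y)
    (hP : (n : ℤ) • (Point.some x y h : E.Point) = 0) : v x ≤ 1 ∧ v y ≤ 1 := by
  subst hE
  obtain ⟨m, rfl⟩ := hn
  have hx : v x ≤ 1 := by
    rcases Nat.eq_zero_or_pos m with rfl | hm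
    · simp at hP
    · rw [natCast_zsmul] at hP
      have h1 := (S13.smul_eq_zero_iff (W.map (Int.castRingHom K)) h m hm).1 hP
      rw [S13.hpoly_map] at h1
      refine S13.root_integral v (S13.hpoly W m) (2 * m ^ 2 + 2 * m)
        (S13.hpoly_natDegree_le W m hm) ?_ x h1
      rw [S13.hpoly_coeff W m hm]
      push_cast
      rw [Valuation.map_neg]
      have := hv
      push_cast at this
      exact this
  refine ⟨hx, S13.R1.val_y_le_one v ?_ h.1 hx⟩
  exact ⟨Integral_val_intCast_le v _, Integral_val_intCast_le v _, Integral_val_intCast_le v _,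
    Integral_val_intCast_le v _, Integral_val_intCast_le v _⟩

end Fermat.Agent.S58.Red
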