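import Fermat.Agent.S58.Red.Defs

/-!
# S58 / Red / TriUp : three nonzero points of sum zero are collinear   (package RED-1)
-/

set_option autoImplicit false

open WeierstrassCurve WeierstrassCurve.Affine WeierstrassCurve.Affine.Point

namespace Fermat.Agent.S58.Red

/-- PROOF.  `P + Q = -R ≠ 0`, so `hxy : ¬ (x₁ = x₂ ∧ y₁ = W.negY x₂ y₂)` (else `Point.add_of_Y_eq` gives `P + Q = 0`).
`l := W.slope x₁ x₂ y₁ y₂`, `k := y₁ - l * x₁`.  `Point.add_some hxy` and `Point.neg_some`, `Point.some.injEq` give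
`x₃ = W.addX x₁ x₂ l` (this is the 4th relation) and `W.negY x₃ y₃ = W.addY x₁ x₂ y₁ l`, i.e. `y₃ = W.negAddY x₁ x₂ y₁ l
= l * (x₃ - x₁) + y₁` (unfold `addY`, `negAddY`, `negY`, `addX`).  `y₂ = l x₂ + k`: if `x₁ ≠ x₂`, `slope_of_X_ne`, `field_simp`;
if `x₁ = x₂` then `y₁ = y₂` (`Y_eq_of_Y_ne`).  The last two relations: compare the coefficients of `X¹`, `X⁰` in
`W.addPolynomial_slope h₁.1 h₂.1 hxy` with `addPolynomial_eq` (or: directly, from the two equations `h₁.1`, `h₂.1`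
(`equation_iff`) and the definition of the slope, cases `x₁ ≠ x₂` [divide by `x₁ - x₂`] / `x₁ = x₂` [`slope_of_Y_ne`]). -/
theorem gtri_of_add_eq_zero {F : Type*} [Field F] [DecidableEq F] (W : WeierstrassCurve.Affine F)
    {x₁ y₁ x₂ y₂ x₃ y₃ : F} (h₁ : W.Nonsingular x₁ y₁) (h₂ : W.Nonsingular x₂ y₂)
    (h₃ : W.Nonsingular x₃ y₃)
    (h : Point.some x₁ y₁ h₁ + Point.some x₂ y₂ h₂ + Point.some x₃ y₃ h₃ = 0) :
    GTri W.a₁ W.a₂ W.a₃ W.a₄ W.a₆ x₁ y₁ x₂ y₂ x₃ y₃ := by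
  have hxy : ¬ (x₁ = x₂ ∧ y₁ = W.negY x₂ y₂) := by
    rintro ⟨hx, hy⟩
    rw [Point.add_of_Y_eq hx hy, zero_add] at h
    exact Point.some_ne_zero _ h
  have h' : Point.some x₁ y₁ h₁ + Point.some x₂ y₂ h₂ = -Point.some x₃ y₃ h₃ :=
    eq_neg_of_add_eq_zero_left h
  rw [Point.add_some hxy, Point.neg_some, Point.some.injEq] at h'
  obtain ⟨hX, hY⟩ := h'
  set l := W.slope x₁ x₂ y₁ y₂ with hl
  have hpoly := W.addPolynomial_slope h₁.1 h₂.1 hxy
  rw [addPolynomial_eq, neg_inj, Cubic.prod_X_sub_C_eq, Cubic.toPoly_injective, ← hl, hX] at hpoly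
  have hb := congrArg Cubic.b hpoly
  have hc := congrArg Cubic.c hpoly
  have hd := congrArg Cubic.d hpoly
  simp only at hb hc hd
  have hy₃ : y₃ = l * (x₃ - x₁) + y₁ := by
    rw [addY, negAddY, hX, negY, negY] at hY
    linear_combination hY
  have hy₂ : y₂ = l * x₂ + (y₁ - l * x₁) := by
    by_cases hx : x₁ = x₂
    · have hy : y₁ ≠ W.negY x₂ y₂ := fun hy => hxy ⟨hx, hy⟩
      rw [← Y_eq_of_Y_ne h₁.1 h₂.1 hx hy, hx]
      ring
    · have hx' : x₁ - x₂ ≠ 0 := sub_ne_zero.2 hx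
      have : l * (x₁ - x₂) = y₁ - y₂ := by
        rw [hl, slope_of_X_ne hx, div_mul_cancel₀ _ hx']
      linear_combination this
  refine ⟨l, y₁ - l * x₁, by ring, hy₂, by rw [hy₃]; ring, ?_, ?_, ?_⟩
  · linear_combination hb
  · linear_combination -hc
  · linear_combination hd

end Fermat.Agent.S58.Red
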